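import Fermat.Agent.S15.H608.T6ppAll
import Fermat.Agent.S15.H208.Cnt
import Fermat.Agent.S15.H808.Fin
import Fermat.Agent.S15.H808.Rtf
import Fermat.Agent.S17.GDiv.Final
import Fermat.Agent.S17

/-!
# S15 / DESC, node CNT closed (helper608)

`cntStatement : H975.CntStatement`, UNCONDITIONAL: `H208.cnt_of_rtf` with

* T6''  = `H608.t6ppAll208`,
* DIV   = `S17.GDiv.divisible`,
* FIN   = `H808.finStatement`,
* RTF   = `H808.rtfStatement_of_mw` applied to the landed `S17.result` (Mordell–Weil).

Also the closed nodes `divStatement`, `rtfStatement`, `mwShape` for the other consumers.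
-/

set_option autoImplicit false

noncomputable section

namespace Fermat.Agent.S15.H608

open ModularCurve AlgebraicCurve

/-- Mordell–Weil for `J₀(N)`, `N ≥ 5` prime (the landed frozen S17). -/
theorem mwShape : Fermat.Agent.S15.H808.MWShape :=
  fun N _ hN hN5 => Fermat.Agent.S17.result N hN hN5

/-- **DIV**: `J₀(p)(ℚ̄)` is divisible. -/
theorem divStatement : Fermat.Agent.S15.H975.DivStatement :=
  fun p _ _ r hr x => Fermat.Agent.S17.GDiv.divisible p r hr.ne_zero x

/-- **RTF**: the rational torsion of `J₀(p)` has bounded exponent. -/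
theorem rtfStatement : Fermat.Agent.S15.H975.RtfStatement :=
  Fermat.Agent.S15.H808.rtfStatement_of_mw mwShape

/-- **CNT** (place `p`, route 208), UNCONDITIONAL. -/
theorem cntStatement : Fermat.Agent.S15.H975.CntStatement :=
  Fermat.Agent.S15.H208.cnt_of_rtf t6ppAll208 divStatement
    Fermat.Agent.S15.H808.finStatement rtfStatement

end Fermat.Agent.S15.H608
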