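import Fermat.Agent.A2.T0.H669.T0
import Fermat.Agent.S17.H680.Cusp

/-!
# S15 / DESC, leaf T6'' (helper608), part (c): the Kummer dictionary for classes with
`τ`-invariant multiple

`x ∈ Pic0 K F`, `m • x = [Z]` with `Z` a `g`-invariant divisor.  Write `x = [D]`,
`m D - Z = div f`.  Then `div (g f / f) = m (g - 1) D` is divisible by `m`; if `(g - 1)² f` is a
constant times an `m`-th power (for every such `f`), then `(g - 1)² x = 0`.

* `KummerTwiceP g m`           : the Kummer-side statement, hypothesis on `g f / f`.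
* `unipotent_of_kummerTwiceP`  : `KummerTwiceP g m →` (`m • x = [Z]`, `g • Z = Z`)
                                 `→ g • (g • x - x) = g • x - x`.
* `KummerAtP N m τ`            : the pointwise Kummer statement on `ℚ̄(X₀(N))`.
* `unipotent_of_kummerAtP`     : `KummerAtP N m τ → τ • (m • x) = m • x →
                                 τ • (τ • x) + x = 2 • (τ • x)` on `JZero N`.
-/

set_option autoImplicit false

noncomputable section

namespace Fermat.Agent.S15.H608

open AlgebraicCurve ModularCurve Fermat.Agent.A2.H129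

section Abstract

variable {K F : Type*} [Field K] [Field F] [Algebra K F]

/-- **Kummer-side statement, primed form.**  For every `f ≠ 0` such that the divisor of
`g f / f` is divisible by `m`, the function `(g - 1)² f` is a constant times an `m`-th power. -/
def KummerTwiceP (g : SemilinearAut K F) (m : ℕ) : Prop :=
  ∀ f : F, f ≠ 0 →
    (∀ v : Place K F, (m : ℤ) ∣ v.ord (tauSubOne (SemilinearAut.toRingAut g) f)) →
    ∃ y : F, ∃ c : K, c ≠ 0 ∧
      tauSubOne (SemilinearAut.toRingAut g) (tauSubOne (SemilinearAut.toRingAut g) f)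
        = algebraMap K F c * y ^ m

/-- The primed form implies the unprimed one. -/
theorem kummerTwice_of_kummerTwiceP (g : SemilinearAut K F) (m : ℕ)
    (H : KummerTwiceP g m) : KummerTwice g m := by
  intro f hf hdiv
  refine H f hf (fun v => ?_)
  have hτf : SemilinearAut.toRingAut g f ≠ 0 := by simpa using hf
  show (m : ℤ) ∣ v.ord (SemilinearAut.toRingAut g f * f⁻¹)
  rw [ord_div v hτf hf, ord_smul_eq]
  exact dvd_sub (hdiv _) (hdiv _)

/-- **K1'.**  The primed Kummer-side statement implies `(g - 1)² x = 0` for every class `x` such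
that `m • x` is represented by a `g`-invariant divisor. -/
theorem unipotent_of_kummerTwiceP (g : SemilinearAut K F) (m : ℕ) (hm : m ≠ 0)
    (H : KummerTwiceP g m) (x : Pic0 K F) (Z : Divisor.degZero (K := K) (F := F))
    (hZ : g • (Z : Divisor K F) = Z) (hx : m • x = Pic0.mk Z) :
    g • (g • x - x) = g • x - x := by
  obtain ⟨D, rfl⟩ := Pic0.mk_surjective x
  -- the Kummer generator
  have hprin : ((m • D - Z : Divisor.degZero (K := K) (F := F)) : Divisor K F) ∈
      Divisor.principal (K := K) (F := F) := by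
    have h0 : Pic0.mk (m • D - Z) = 0 := by
      have h1 : Pic0.mk (m • D - Z) = m • Pic0.mk D - Pic0.mk Z := rfl
      rw [h1, hx, sub_self]
    have := (QuotientAddGroup.eq_zero_iff (m • D - Z)).1 h0
    simpa [AddSubgroup.mem_addSubgroupOf] using this
  obtain ⟨f, hf, hfD⟩ := hprin
  have hfD' : ∀ v : Place K F, v.ord f = (m : ℤ) * (D : Divisor K F) v - (Z : Divisor K F) v := by
    intro v
    rw [← hfD v]
    simp [Finsupp.smul_apply]
  have hZv : ∀ v : Place K F, (Z : Divisor K F) (g⁻¹ • v) = (Z : Divisor K F) v := by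
    intro v
    have h := SemilinearAut.divisor_smul_apply g (Z : Divisor K F) v
    rw [hZ] at h
    exact h.symm
  set τ := SemilinearAut.toRingAut g with hτ
  have hτf : τ f ≠ 0 := by simpa using hf
  have h1 : tauSubOne τ f ≠ 0 := tauSubOne_ne_zero τ hf
  have h2 : tauSubOne τ (tauSubOne τ f) ≠ 0 := tauSubOne_ne_zero τ h1
  have e1 : ∀ (h : F), h ≠ 0 → ∀ v : Place K F,
      v.ord (tauSubOne τ h) = (g⁻¹ • v).ord h - v.ord h := by
    intro h hh v
    have hτh : τ h ≠ 0 := by simpa using hh
    show v.ord (τ h * h⁻¹) = _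
    rw [ord_div v hτh hh, hτ, ord_smul_eq]
  have hdiv : ∀ v : Place K F, (m : ℤ) ∣ v.ord (tauSubOne τ f) := by
    intro v
    rw [e1 f hf v, hfD', hfD', hZv]
    exact ⟨(D : Divisor K F) (g⁻¹ • v) - (D : Divisor K F) v, by ring⟩
  obtain ⟨y, c, hc, hyc⟩ := H f hf hdiv
  have hy : y ≠ 0 := by
    rintro rfl
    rw [zero_pow hm, mul_zero] at hyc
    exact h2 hyc
  have hcF : algebraMap K F c ≠ 0 := by simpa using hc
  -- the divisor `E = (g-1)² D`
  set E : Divisor.degZero (K := K) (F := F) :=
    SemilinearAut.degZeroSMulHom g (SemilinearAut.degZeroSMulHom g D - D)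
      - (SemilinearAut.degZeroSMulHom g D - D) with hE
  have hgoal : g • (g • Pic0.mk D - Pic0.mk D) - (g • Pic0.mk D - Pic0.mk D) = Pic0.mk E := by
    rw [SemilinearAut.pic0_smul_mk]
    rfl
  rw [← sub_eq_zero, hgoal]
  refine (QuotientAddGroup.eq_zero_iff E).2 ?_
  rw [AddSubgroup.mem_addSubgroupOf]
  refine ⟨y, hy, fun w => ?_⟩
  have hEw : (E : Divisor K F) w =
      (D : Divisor K F) (g⁻¹ • (g⁻¹ • w)) - (D : Divisor K F) (g⁻¹ • w)
        - ((D : Divisor K F) (g⁻¹ • w) - (D : Divisor K F) w) := by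
    simp only [hE, AddSubgroupClass.coe_sub, SemilinearAut.coe_degZeroSMulHom, smul_sub,
      Finsupp.sub_apply, SemilinearAut.divisor_smul_apply]
  have hord : w.ord (tauSubOne τ (tauSubOne τ f)) =
      (g⁻¹ • (g⁻¹ • w)).ord f - (g⁻¹ • w).ord f - ((g⁻¹ • w).ord f - w.ord f) := by
    rw [e1 _ h1 w, e1 f hf (g⁻¹ • w), e1 f hf w]
  have hord2 : w.ord (tauSubOne τ (tauSubOne τ f)) = (m : ℤ) * w.ord y := by
    rw [hyc, w.ord_mul hcF (pow_ne_zero m hy), ord_algebraMap_eq_zero, zero_add, ord_pow]
  have hmE : (m : ℤ) * (E : Divisor K F) w = (m : ℤ) * w.ord y := by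
    rw [← hord2, hord, hEw, hfD', hfD', hfD', hZv, hZv]
    ring
  have hm' : (m : ℤ) ≠ 0 := by exact_mod_cast hm
  exact mul_left_cancel₀ hm' hmE

end Abstract

section Modular

/-- The pointwise Kummer statement for one `τ`, primed form: the hypothesis is that the divisor of
`τ f / f` is divisible by `m`. -/
def KummerAtP (N m : ℕ) (τ : AlgebraicClosure ℚ ≃ₐ[ℚ] AlgebraicClosure ℚ) : Prop :=
  ∀ f : modularFunctionFieldBar N, f ≠ 0 →
    (∀ v : Place (AlgebraicClosure ℚ) (modularFunctionFieldBar N),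
      (m : ℤ) ∣ v.ord (arithmeticRingAut (modularFunctionFieldFull N) τ f * f⁻¹)) →
    ∃ h : modularFunctionFieldBar N, h ≠ 0 ∧
      arithmeticRingAut (modularFunctionFieldFull N) τ
          (arithmeticRingAut (modularFunctionFieldFull N) τ f) * f =
        h ^ m * (arithmeticRingAut (modularFunctionFieldFull N) τ f) ^ 2

/-- The primed pointwise statement implies the unprimed one (`A2.T0.H669.KummerAt`). -/
theorem kummerAt_of_kummerAtP (N m : ℕ) (τ : AlgebraicClosure ℚ ≃ₐ[ℚ] AlgebraicClosure ℚ)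
    (h : KummerAtP N m τ) : Fermat.Agent.A2.T0.H669.KummerAt N m τ := by
  intro f hf hdiv
  refine h f hf (fun v => ?_)
  have hτf : arithmeticRingAut (modularFunctionFieldFull N) τ f ≠ 0 :=
    (map_ne_zero_iff _ (arithmeticRingAut (modularFunctionFieldFull N) τ).injective).2 hf
  rw [ord_div v hτf hf, ← toRingAut_arithmeticGalois, ord_smul_eq]
  exact dvd_sub (hdiv _) (hdiv _)

/-- One `τ`: the primed pointwise Kummer statement gives `KummerTwiceP`. -/
theorem kummerTwiceP_of_kummerAtP (N m : ℕ) (τ : AlgebraicClosure ℚ ≃ₐ[ℚ] AlgebraicClosure ℚ)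
    (h : KummerAtP N m τ) :
    KummerTwiceP (K := AlgebraicClosure ℚ) (F := modularFunctionFieldBar N)
      (arithmeticGalois (modularFunctionFieldFull N) τ) m := by
  intro f hf hdiv
  have hdiv' : ∀ v : Place (AlgebraicClosure ℚ) (modularFunctionFieldBar N),
      (m : ℤ) ∣ v.ord (arithmeticRingAut (modularFunctionFieldFull N) τ f * f⁻¹) := by
    intro v
    have := hdiv v
    rw [toRingAut_arithmeticGalois] at this
    exact this
  obtain ⟨y, _, hy⟩ := h f hf hdiv'
  refine ⟨y, 1, one_ne_zero, ?_⟩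
  rw [toRingAut_arithmeticGalois, Fermat.Agent.A2.T0.H669.tauSubOne_tauSubOne_eq _ hf, hy,
    map_one, one_mul]
  have hτf : arithmeticRingAut (modularFunctionFieldFull N) τ f ≠ 0 :=
    (map_ne_zero_iff _ (arithmeticRingAut (modularFunctionFieldFull N) τ).injective).2 hf
  field_simp

variable (N : ℕ) [NeZero N]

/-- **T0'.**  One `τ`: the primed pointwise Kummer statement gives `(τ - 1)² x = 0` for every
`x ∈ J₀(N)` such that `m • x` is fixed by `τ`. -/
theorem unipotent_of_kummerAtP (m : ℕ) (hm : 0 < m)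
    (τ : AlgebraicClosure ℚ ≃ₐ[ℚ] AlgebraicClosure ℚ) (h : KummerAtP N m τ)
    (x : JZero N) (hx : τ • (m • x) = m • x) :
    τ • (τ • x) + x = 2 • (τ • x) := by
  have hx' : arithmeticGalois (modularFunctionFieldFull N) τ • (m • x) = m • x := hx
  have hZ := Fermat.Agent.S17.H680.smul_minDiv_eq
    (arithmeticGalois (modularFunctionFieldFull N) τ)
    (Fermat.Agent.S17.H680.JZero.galois_smul_cusp N τ) hx'
  have hmk := Fermat.Agent.S17.H680.mk_minDiv (Fermat.Agent.S17.H680.JZero.cusp N) (m • x)
  have h1 : arithmeticGalois (modularFunctionFieldFull N) τ •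
      (arithmeticGalois (modularFunctionFieldFull N) τ • x - x) =
      arithmeticGalois (modularFunctionFieldFull N) τ • x - x :=
    unipotent_of_kummerTwiceP
      (arithmeticGalois (modularFunctionFieldFull N) τ) m hm.ne'
      (kummerTwiceP_of_kummerAtP N m τ h) x _ hZ hmk.symm
  have h1' : τ • (τ • x - x) = τ • x - x := h1
  rw [smul_sub] at h1'
  rw [two_nsmul]
  have h2 : τ • (τ • x) = τ • x - x + τ • x := by
    rw [← h1']; abel
  rw [h2]; abel

end Modular

end Fermat.Agent.S15.H608
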