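import Fermat.Agent.S15.H608.T6ppKum
import Fermat.Agent.S15.H608.T6ppDict
import Fermat.Agent.S15.H208.LocPSpec

/-!
# S15 / DESC, leaf T6'' (helper608): `(τ - 1)² = 0` on the divisible hull of the `τ`-fixed classes

`coord/S15-LOCp-helper208.md`, sec. 3.  UNCONDITIONAL.

For `q ‖ N`, `q ∤ m` (and `q = 3 → 2 ∣ N`, `q = 2 → 3 ∣ N`, vacuous for `q ≥ 5`), `P` a place of
`ℚ̄` over `q`, `τ` in the inertia group of `P` and `x ∈ J₀(N)`:

* `t6pp`        : `τ • (m • x) = m • x  →  τ • (τ • x) + x = 2 • (τ • x)`;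
* `t6pp_sub`    : the same conclusion in the form `τ • (τ • x - x) = τ • x - x`;
* `t6pp_fixed`  : hypothesis `m • x ∈ J₀(N)^{G_ℚ}` (`FixedPoints.addSubgroup`);
* `t6ppStatement`       : `H208.T6ppStatement N q m` (VERBATIM `S15/H208/LocPSpec.lean`);
* `t6ppStatement_prime` : `H208.T6ppStatement p p (r ^ k)` for `p ≥ 5` prime, `r ≠ p` prime;
* `t6pp_prime`  : level `p ≥ 5` prime, `q = p`, `m = r ^ k` with `r ≠ p` prime: for every `h` in the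
                  `r`-divisible hull of `A = J₀(p)(ℚ)`, `N (N h) = 0`, `N = τ - 1`.

The case `m • x = 0` is the wall A2 (`A2.Spec.Target`).
-/

set_option autoImplicit false

noncomputable section

namespace Fermat.Agent.S15.H608

open ModularCurve AlgebraicCurve

/-- **T6''.**  Unipotence of inertia at `q ‖ N` on the classes with `τ`-fixed `m`-th multiple. -/
theorem t6pp (N q m : ℕ) (hq : q.Prime) (hqN : q ∣ N) (hq2 : ¬ q ^ 2 ∣ N) (hN : N ≠ 0)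
    (h3 : q = 3 → 2 ∣ N) (h2 : q = 2 → 3 ∣ N) (hm : 0 < m) (hqm : ¬ q ∣ m)
    (P : ValuationSubring (AlgebraicClosure ℚ)) (hP : P.LiesOverPrime q)
    (τ : AlgebraicClosure ℚ ≃ₐ[ℚ] AlgebraicClosure ℚ) (hτ : τ ∈ P.inertiaSubgroupIn ℚ)
    (x : JZero N) (hx : τ • (m • x) = m • x) :
    τ • (τ • x) + x = 2 • (τ • x) := by
  haveI : NeZero N := ⟨hN⟩
  exact unipotent_of_kummerAtP N m hm τ
    (kummerP N q m hq hqN hq2 hN h3 h2 hm hqm P hP τ hτ) x hx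

/-- **T6''**, subtraction form: `N (N x) = 0` for `N = τ - 1`. -/
theorem t6pp_sub (N q m : ℕ) (hq : q.Prime) (hqN : q ∣ N) (hq2 : ¬ q ^ 2 ∣ N) (hN : N ≠ 0)
    (h3 : q = 3 → 2 ∣ N) (h2 : q = 2 → 3 ∣ N) (hm : 0 < m) (hqm : ¬ q ∣ m)
    (P : ValuationSubring (AlgebraicClosure ℚ)) (hP : P.LiesOverPrime q)
    (τ : AlgebraicClosure ℚ ≃ₐ[ℚ] AlgebraicClosure ℚ) (hτ : τ ∈ P.inertiaSubgroupIn ℚ)
    (x : JZero N) (hx : τ • (m • x) = m • x) :
    τ • (τ • x - x) = τ • x - x := by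
  have h := t6pp N q m hq hqN hq2 hN h3 h2 hm hqm P hP τ hτ x hx
  rw [two_nsmul] at h
  rw [smul_sub, sub_eq_sub_iff_add_eq_add]
  rw [h]

/-- **T6''** for classes with rational `m`-th multiple. -/
theorem t6pp_fixed (N q m : ℕ) (hq : q.Prime) (hqN : q ∣ N) (hq2 : ¬ q ^ 2 ∣ N) (hN : N ≠ 0)
    (h3 : q = 3 → 2 ∣ N) (h2 : q = 2 → 3 ∣ N) (hm : 0 < m) (hqm : ¬ q ∣ m)
    (P : ValuationSubring (AlgebraicClosure ℚ)) (hP : P.LiesOverPrime q)
    (τ : AlgebraicClosure ℚ ≃ₐ[ℚ] AlgebraicClosure ℚ) (hτ : τ ∈ P.inertiaSubgroupIn ℚ)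
    (x : JZero N)
    (hx : m • x ∈
      FixedPoints.addSubgroup (AlgebraicClosure ℚ ≃ₐ[ℚ] AlgebraicClosure ℚ) (JZero N)) :
    τ • (τ • x) + x = 2 • (τ • x) :=
  t6pp N q m hq hqN hq2 hN h3 h2 hm hqm P hP τ hτ x (hx τ)

/-- **T6''** in the frozen shape of `S15/H208/LocPSpec.lean`. -/
theorem t6ppStatement (N q m : ℕ) (hq : q.Prime) (hqN : q ∣ N) (hq2 : ¬ q ^ 2 ∣ N) (hN : N ≠ 0)
    (h3 : q = 3 → 2 ∣ N) (h2 : q = 2 → 3 ∣ N) (hm : 0 < m) (hqm : ¬ q ∣ m) :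
    Fermat.Agent.S15.H208.T6ppStatement N q m :=
  fun P hP τ hτ x hx => t6pp N q m hq hqN hq2 hN h3 h2 hm hqm P hP τ hτ x (hx τ)

/-- **T6''** in the frozen shape, at prime level `p ≥ 5`, `q = p`, `m = r ^ k`, `r ≠ p` prime
(the instance consumed by `H208.CountInst`). -/
theorem t6ppStatement_prime (p r : ℕ) (hp : p.Prime) (hp5 : 5 ≤ p) (hr : r.Prime) (hrp : r ≠ p)
    (k : ℕ) : Fermat.Agent.S15.H208.T6ppStatement p p (r ^ k) := by
  have hq2 : ¬ p ^ 2 ∣ p := by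
    intro h
    have h1 := Nat.le_of_dvd hp.pos h
    have h2 : p * 2 ≤ p ^ 2 := by
      rw [pow_two]; exact Nat.mul_le_mul_left p (by omega)
    omega
  have hpm : ¬ p ∣ r ^ k := by
    intro h
    have h1 := hp.dvd_of_dvd_pow h
    exact hrp ((Nat.prime_dvd_prime_iff_eq hp hr).1 h1).symm
  exact t6ppStatement p p (r ^ k) hp dvd_rfl hq2 hp.ne_zero (fun h => by omega)
    (fun h => by omega) (pow_pos hr.pos k) hpm

/-- **T6'' at prime level** `p ≥ 5`, `q = p`, `m = r ^ k`, `r ≠ p` prime: `N (N h) = 0` on the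
`r`-divisible hull of `J₀(p)(ℚ)` for `N = τ - 1`, `τ` in an inertia group at `p`. -/
theorem t6pp_prime (p r : ℕ) (hp : p.Prime) (hp5 : 5 ≤ p) (hr : r.Prime) (hrp : r ≠ p) (k : ℕ)
    (P : ValuationSubring (AlgebraicClosure ℚ)) (hP : P.LiesOverPrime p)
    (τ : AlgebraicClosure ℚ ≃ₐ[ℚ] AlgebraicClosure ℚ) (hτ : τ ∈ P.inertiaSubgroupIn ℚ)
    (x : JZero p)
    (hx : (r ^ k) • x ∈
      FixedPoints.addSubgroup (AlgebraicClosure ℚ ≃ₐ[ℚ] AlgebraicClosure ℚ) (JZero p)) :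
    τ • (τ • x - x) = τ • x - x := by
  have hq2 : ¬ p ^ 2 ∣ p := by
    intro h
    have h1 := Nat.le_of_dvd hp.pos h
    have h2 : p * 2 ≤ p ^ 2 := by
      rw [pow_two]; exact Nat.mul_le_mul_left p (by omega)
    omega
  have hpm : ¬ p ∣ r ^ k := by
    intro h
    have h1 := hp.dvd_of_dvd_pow h
    exact hrp ((Nat.prime_dvd_prime_iff_eq hp hr).1 h1).symm
  exact t6pp_sub p p (r ^ k) hp dvd_rfl hq2 hp.ne_zero (fun h => by omega) (fun h => by omega)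
    (pow_pos hr.pos k) hpm P hP τ hτ x (hx τ)

end Fermat.Agent.S15.H608
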