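import Fermat.Agent.S15.H608.T6pp
import Fermat.Agent.S15.H208.LocP0
import Fermat.Agent.S15.H808.RtfSmall

/-!
# S15 / DESC, leaf T6'' (helper608): the frozen `H208.T6ppAllStatement`, UNCONDITIONAL

* `t6ppAll208 : H208.T6ppAllStatement`  (all primes `p`, all primes `r ≠ p`; VERBATIM
  `S15/H208/LocP0.lean`, consumed by `H208.cnt_of_rtf`, `H208.locP0_of_t6pp`);
* `t6ppAll466 : H466.T6ppAllStatement` is in `S15/H608/T6ppAll466.lean`.

Levels `p ≥ 5`: `t6ppStatement_prime`.  Levels `p = 2, 3`: `J₀(p) = 0`
(`H808.subsingleton_jZero_two/three`).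
-/

set_option autoImplicit false

noncomputable section

namespace Fermat.Agent.S15.H608

open ModularCurve AlgebraicCurve

/-- On a trivial Jacobian the statement T6'' is empty. -/
theorem t6ppStatement_of_subsingleton (N q m : ℕ) (h : Subsingleton (JZero N)) :
    Fermat.Agent.S15.H208.T6ppStatement N q m :=
  fun _ _ _ _ _ _ => Subsingleton.elim _ _

/-- **T6''** at every prime level `p` (inertia at `p`), for every prime `r ≠ p` and every `k`. -/
theorem t6ppStatement_allPrime (p r : ℕ) (hp : p.Prime) (hr : r.Prime) (hrp : r ≠ p) (k : ℕ) :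
    Fermat.Agent.S15.H208.T6ppStatement p p (r ^ k) := by
  rcases Nat.lt_or_ge p 5 with h5 | h5
  · have h2 := hp.two_le
    have hcases : p = 2 ∨ p = 3 := by
      have h4 : p ≠ 4 := by
        rintro rfl
        exact absurd hp (by norm_num)
      omega
    rcases hcases with rfl | rfl
    · exact t6ppStatement_of_subsingleton 2 2 (r ^ k)
        Fermat.Agent.S15.H808.subsingleton_jZero_two
    · exact t6ppStatement_of_subsingleton 3 3 (r ^ k)
        Fermat.Agent.S15.H808.subsingleton_jZero_three
  · exact t6ppStatement_prime p r hp h5 hr hrp k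

/-- **`H208.T6ppAllStatement`**, VERBATIM. -/
theorem t6ppAll208 : Fermat.Agent.S15.H208.T6ppAllStatement :=
  fun p _ hp r hr hrp k => t6ppStatement_allPrime p r hp hr hrp k

end Fermat.Agent.S15.H608
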