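import Fermat.Agent.S15.H608.T6ppAll
import Fermat.Agent.S15.H466.SelAsm

/-!
# S15 / DESC, leaf T6'' (helper608): the frozen `H466.T6ppAllStatement`, UNCONDITIONAL

* `t6ppAll466 : H466.T6ppAllStatement`  (all primes `p`, all primes `r ∣ p - 1`; VERBATIM
  `S15/H466/SelAsm.lean`, consumed by `H466.descCoreTarget_route208`).
-/

set_option autoImplicit false

noncomputable section

namespace Fermat.Agent.S15.H608

open ModularCurve AlgebraicCurve

/-- **`H466.T6ppAllStatement`**, VERBATIM. -/
theorem t6ppAll466 : Fermat.Agent.S15.H466.T6ppAllStatement := by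
  intro p _ hp r hr hrp k
  refine t6ppStatement_allPrime p r hp hr ?_ k
  rintro rfl
  have h1 : r - 1 < r := Nat.sub_lt hr.pos Nat.one_pos
  have h2 : 0 < r - 1 := by have := hr.two_le; omega
  exact absurd (Nat.le_of_dvd h2 hrp) (by omega)

end Fermat.Agent.S15.H608
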