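import Fermat.Agent.A2.Top.H553.WallS
import Fermat.Agent.A2.Mod.H372.S3Final
import Fermat.Agent.A2.Mod.H142.S2Final
import Fermat.Agent.A2.Mod.H216.GoodRedAll

/-!
# S15 / DESC, leaf T6'' (helper608), parts (a), (b), (d): the Kummer form of the wall A2 with the
divisibility hypothesis moved from `f` to `τ f / f`

* `algSP`              : ALG route S (no `SepCoord`), hypothesis `DivisibleDiv E m (τ f * f⁻¹)`;
* `kummer_of_levelsP`  : T1' (descent from `F̄` to good finite levels);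
* `t1SP`               : `HasModelS` at level `N` ⟹ the primed Kummer statement at level `N`;
* `kummerP`            : UNCONDITIONAL, for `q ‖ N`, `q ∤ m` (`q = 3 → 2 ∣ N`, `q = 2 → 3 ∣ N`;
                         both vacuous for `q ≥ 5`): for `τ` in the inertia group at `q` and
                         `f ≠ 0` with `m ∣ div (τ f / f)`:  `τ²f · f = h^m · (τ f)²`.
-/

set_option autoImplicit false
set_option linter.unusedSectionVars false
set_option linter.unusedVariables false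
set_option synthInstance.maxHeartbeats 400000
set_option maxHeartbeats 1600000

noncomputable section

namespace Fermat.Agent.S15.H608

open ModularCurve AlgebraicCurve Fermat.Agent.A2 Fermat.Agent.A2.Alg Fermat.Agent.A2.Alg.H34
  Fermat.Agent.A2.T1.H669 Fermat.Agent.A2.Top.H994 Fermat.Agent.A2.Top.H553

/-! ## (a) ALG -/

section Alg

variable {R E F : Type} [CommRing R] [IsDomain R] [IsDiscreteValuationRing R]
  [HenselianLocalRing R] [IsAlgClosed (IsLocalRing.ResidueField R)]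
  [Field E] [CharZero E] [Algebra R E] [IsFractionRing R E]
  [Field F] [Algebra E F] [Algebra R F] [IsScalarTower R E F]

/-- **ALG, route S, primed form**: the hypothesis is `DivisibleDiv` for `τ f / f` only. -/
theorem algSP (w : R) (hw : Irreducible w) (q m : ℕ) (hq : q.Prime)
    (hqR : (q : R) ∈ IsLocalRing.maximalIdeal R) (hm : 0 < m) (hqm : ¬ q ∣ m)
    (x : F) (hx : Transcendental E x)
    (hfin : FiniteDimensional (IntermediateField.adjoin E ({x} : Set F)) F)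
    (hconst : ∀ f : F, IsAlgebraic E f → f ∈ (algebraMap E F).range)
    (Bf Bi : Subalgebra R F)
    (hBf : ∀ f : F, f ∈ Bf ↔ IsIntegral (Algebra.adjoin R ({x} : Set F)) f)
    (hBi : ∀ f : F, f ∈ Bi ↔ IsIntegral (Algebra.adjoin R ({x⁻¹} : Set F)) f)
    (cf : SSChart w Bf) (ci : SSChart w Bi)
    (τ : F ≃+* F) (τE : E ≃+* E) (τR : R ≃+* R)
    (hτE : ∀ e : E, τ (algebraMap E F e) = algebraMap E F (τE e))
    (hτR : ∀ r : R, τE (algebraMap R E r) = algebraMap R E (τR r))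
    (hτf : ∀ b ∈ Bf, ∃ c ∈ Bf, τ b - b = algebraMap R F w * c)
    (hτi : ∀ b ∈ Bi, ∃ c ∈ Bi, τ b - b = algebraMap R F w * c) :
    ∀ f : F, f ≠ 0 → DivisibleDiv E m (τ f * f⁻¹) →
      ∃ h : F, h ≠ 0 ∧ τ (τ f) * f = h ^ m * (τ f) ^ 2 := by
  have hCf : ChartCtx E w x Bf := ⟨hw, hx, hfin, hconst, hBf⟩
  have hCi : ChartCtx E w x⁻¹ Bi := chartCtx_inv w hw x hx hfin hconst Bi hBi
  have hTf : TauCtx w Bf τ τE τR := ⟨hτE, hτR, hτf⟩
  have hTi : TauCtx w Bi τ τE τR := ⟨hτE, hτR, hτi⟩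
  intro f hf hdivu
  have hτf0 : τ f ≠ 0 := (map_ne_zero τ).2 hf
  have hu : τ f * f⁻¹ ≠ 0 := mul_ne_zero hτf0 (inv_ne_zero hf)
  obtain ⟨h, hh, hh2⟩ := stepIIS q m hq hqR hm hqm w x Bf Bi hCf hCi cf ci
    τ τE τR hTf hTi (τ f * f⁻¹) hu hdivu
    (stepI w x Bf hCf cf (incomparable_of_ssChart cf) τ τE τR hTf f hf)
    (stepI w x⁻¹ Bi hCi ci (incomparable_of_ssChart ci) τ τE τR hTi f hf)
  refine ⟨h, hh, ?_⟩
  rw [map_mul, map_inv₀] at hh2
  have h3 : τ (τ f) = h ^ m * (τ f * f⁻¹) * τ f := by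
    rw [← hh2, mul_assoc, inv_mul_cancel₀ hτf0, mul_one]
  rw [h3]
  field_simp

end Alg

/-! ## (b) T1' -/

/-- **T1', core.**  One `τ`: the primed Kummer statement on `F̄` from the primed Kummer statement
at suitable finite levels. -/
theorem kummer_of_levelsP (F₀ : IntermediateField ℚ (LaurentSeries ℚ)) (m : ℕ)
    (τ : (AlgebraicClosure ℚ) ≃ₐ[ℚ] (AlgebraicClosure ℚ))
    (hlevel : ∀ S : Finset (AlgebraicClosure ℚ),
      ∃ E : IntermediateField ℚ (AlgebraicClosure ℚ), (∀ s ∈ S, s ∈ E) ∧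
      ∃ τE : E ≃ₐ[ℚ] E,
        (∀ e : E, ((τE e : E) : (AlgebraicClosure ℚ)) = τ (e : (AlgebraicClosure ℚ))) ∧
        ∀ y : ↥(laurentBaseChange E F₀), y ≠ 0 →
          (∀ V : ValuationSubring ↥(laurentBaseChange E F₀), IsDiscreteValuationRing V →
            (∀ e : E, algebraMap E ↥(laurentBaseChange E F₀) e ∈ V) →
            ∃ h u : ↥(laurentBaseChange E F₀), h ≠ 0 ∧ u ∈ V ∧ u⁻¹ ∈ V ∧
              arithmeticRingAut F₀ τE y * y⁻¹ = u * h ^ m) →
          ∃ h : ↥(laurentBaseChange E F₀), h ≠ 0 ∧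
            arithmeticRingAut F₀ τE (arithmeticRingAut F₀ τE y) * y =
              h ^ m * (arithmeticRingAut F₀ τE y) ^ 2)
    (f : ↥(laurentBaseChange (AlgebraicClosure ℚ) F₀)) (hf : f ≠ 0)
    (hdiv : ∀ v : Place (AlgebraicClosure ℚ) ↥(laurentBaseChange (AlgebraicClosure ℚ) F₀),
      (m : ℤ) ∣ v.ord (arithmeticRingAut F₀ τ f * f⁻¹)) :
    ∃ h : ↥(laurentBaseChange (AlgebraicClosure ℚ) F₀), h ≠ 0 ∧
      arithmeticRingAut F₀ τ (arithmeticRingAut F₀ τ f) * f =
        h ^ m * (arithmeticRingAut F₀ τ f) ^ 2 := by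
  obtain ⟨S, hS⟩ := exists_finset_descent F₀ f
  obtain ⟨E, hSE, τE, hτE, hE⟩ := hlevel S
  obtain ⟨y, hιy⟩ := hS E hSE
  have hy0 : y ≠ 0 := by
    rintro h0
    apply hf
    rw [← hιy, h0, map_zero]
  have hτy0 : arithmeticRingAut F₀ τE y ≠ 0 :=
    (map_ne_zero_iff _ (arithmeticRingAut F₀ τE).injective).2 hy0
  have hu0 : arithmeticRingAut F₀ τE y * y⁻¹ ≠ 0 := mul_ne_zero hτy0 (inv_ne_zero hy0)
  have hιu : iota E F₀ (arithmeticRingAut F₀ τE y * y⁻¹) = arithmeticRingAut F₀ τ f * f⁻¹ := by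
    rw [map_mul, map_inv₀, iota_arithmeticRingAut E F₀ τ τE hτE, hιy]
  obtain ⟨h, hh0, hh⟩ := hE y hy0
    (divisibleDiv_of_ord E F₀ m _ hu0 (fun v => by rw [hιu]; exact hdiv v))
  refine ⟨iota E F₀ h, iota_ne_zero E _ hh0, ?_⟩
  have := congrArg (iota E F₀) hh
  rw [map_mul, map_mul, map_pow, map_pow,
    iota_arithmeticRingAut E F₀ τ τE hτE,
    iota_arithmeticRingAut E F₀ τ τE hτE, hιy] at this
  exact this

/-- The primed Kummer form of the wall at `(N, q, m)`. -/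
def KummerTargetP (N q m : ℕ) : Prop :=
  ∀ P : ValuationSubring (AlgebraicClosure ℚ), P.LiesOverPrime q →
    ∀ τ ∈ P.inertiaSubgroupIn ℚ, ∀ f : modularFunctionFieldBar N, f ≠ 0 →
      (∀ v : Place (AlgebraicClosure ℚ) (modularFunctionFieldBar N),
        (m : ℤ) ∣ v.ord (arithmeticRingAut (modularFunctionFieldFull N) τ f * f⁻¹)) →
      ∃ h : modularFunctionFieldBar N, h ≠ 0 ∧
        arithmeticRingAut (modularFunctionFieldFull N) τ
            (arithmeticRingAut (modularFunctionFieldFull N) τ f) * f =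
          h ^ m * (arithmeticRingAut (modularFunctionFieldFull N) τ f) ^ 2

/-- **T1' for one level, without `SepCoord`.** -/
theorem t1SP (N q m : ℕ) (hq : q.Prime) (hm : 0 < m) (hqm : ¬ q ∣ m)
    (hMOD : ∀ (P : ValuationSubring (AlgebraicClosure ℚ))
        (E : IntermediateField ℚ (AlgebraicClosure ℚ)),
      P.LiesOverPrime q → GoodField P E → HasModelS P E N) :
    KummerTargetP N q m := by
  intro P hP τ hτ f hf hdiv
  refine kummer_of_levelsP (modularFunctionFieldFull N) m τ (fun S => ?_) f hf hdiv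
  obtain ⟨E, hSE, hE⟩ := Fermat.Agent.A2.IF.H429.ifStatement q hq P hP S
  refine ⟨E, hSE, hE.res τ hτ, fun e => rfl, fun y hy0 hdd => ?_⟩
  obtain ⟨x, Bf, Bi, hx, hfin, hconst, hBf, hBi, hcf, hci, hτx, hτf, hτi⟩ := hMOD P E hP hE
  haveI : IsDiscreteValuationRing ↥(RE P E) := hE.dvr
  haveI : HenselianLocalRing ↥(RE P E) := hE.henselian
  haveI : IsAlgClosed (IsLocalRing.ResidueField ↥(RE P E)) := hE.algClosed
  obtain ⟨w, hw⟩ := IsDiscreteValuationRing.exists_irreducible ↥(RE P E)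
  obtain ⟨cf⟩ := hcf w hw
  obtain ⟨ci⟩ := hci w hw
  exact algSP (R := ↥(RE P E)) (E := E) (F := ↥(FE E N)) w hw q m hq
      (natCast_mem_maximalIdeal_RE E hP) hm hqm x hx hfin hconst Bf Bi hBf hBi
      cf ci
      (arithmeticRingAut (modularFunctionFieldFull N) (hE.res τ hτ))
      (hE.res τ hτ).toRingEquiv (resR hE τ hτ)
      (fun e => arithmeticRingAut_algebraMap (modularFunctionFieldFull N) (hE.res τ hτ) e)
      (fun r => rfl)
      (hτf τ hτ (hE.res τ hτ) (fun e => rfl) w hw)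
      (hτi τ hτ (hE.res τ hτ) (fun e => rfl) w hw) y hy0 hdd

/-! ## (d) MOD plugged in -/

/-- **The primed Kummer form of the wall, UNCONDITIONAL**, for `q ‖ N`, `q ∤ m`, at the levels
where the semistable model is available without auxiliary level (always if `q ≥ 5`). -/
theorem kummerP (N q m : ℕ) (hq : q.Prime) (hqN : q ∣ N) (hq2 : ¬ q ^ 2 ∣ N) (hN : N ≠ 0)
    (h3 : q = 3 → 2 ∣ N) (h2 : q = 2 → 3 ∣ N) (hm : 0 < m) (hqm : ¬ q ∣ m) :
    KummerTargetP N q m := by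
  apply t1SP N q m hq hm hqm
  intro P E hP hE
  exact hasModelS_of_parts
    (fun P E M q _ _ w => Fermat.Agent.A2.Mod.H142.s2 P E M q w)
    (fun P E M q _ _ w => Fermat.Agent.A2.Mod.H372.s3 P E M q w)
    Fermat.Agent.A2.Top.H216.goodRedStatement
    P E N q hq hqN hq2 hN h3 h2 hP hE

end Fermat.Agent.S15.H608
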